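import Fermat.Agent.CFT.LocalEuler.Basic

/-!
The cup product of classes of degree one with classes of the twisted dual.
-/

set_option autoImplicit false

noncomputable section

open scoped Classical

namespace FermatAgent.CFT.Pairing

open Coh Euler

variable {p : ℕ} [hp : Fact p.Prime] {Γ : Type} [Group Γ] {χ : Γ →* (ZMod p)ˣ} {L : Levels Γ}
  {M : Type} [AddCommGroup M] [DistribMulAction Γ M]

/-- The cup product with values in the twisted residues. -/
def cup (x : Γ → M) (y : Γ → Dual χ M) (g h : Γ) : Mu χ :=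
  Mu.of χ (Dual.hom χ M (y g) (g • x h))

lemma cup_add_left (x x' : Γ → M) (y : Γ → Dual χ M) : cup (x + x') y = cup x y + cup x' y := by
  funext g h; simp [cup]

lemma cup_add_right (x : Γ → M) (y y' : Γ → Dual χ M) : cup x (y + y') = cup x y + cup x y' := by
  funext g h; simp [cup]

/-- The evaluation into twisted residues is equivariant. -/
lemma smul_pairing (g : Γ) (n : Dual χ M) (m : M) :
    g • Mu.of χ (Dual.hom χ M n m) = Mu.of χ (Dual.hom χ M (g • n) (g • m)) := Mu.ext χ (by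
  rw [Mu.val_smul, Mu.val_of, Mu.val_of, Dual.hom_smul_smul])

lemma const1_pairing (hM : L.Smooth M) {z : Γ → Dual χ M} (hz : L.Const1 ⊤ z) (m : M) :
    L.Const1 ⊤ (fun g => Mu.of χ (Dual.hom χ M (z g) (g • m))) := by
  obtain ⟨V, hV, h⟩ := hz
  obtain ⟨W, hW, hfix⟩ := hM m
  exact ⟨V ⊓ W, L.inf_mem hV hW, fun g hg s hs => by
    simp only [mul_smul, h g hg s ⟨hs.1, hs.2.1⟩, hfix s hs.2.2]⟩

/-- Cup products of cocycles are cocycles. -/
lemma cup_mem_Z2 (hM : L.Smooth M) {x : Γ → M} (hx : x ∈ L.Z1 ⊤ M) {y : Γ → Dual χ M}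
    (hy : y ∈ L.Z1 ⊤ (Dual χ M)) : cup x y ∈ L.Z2 ⊤ (Mu χ) := by
  obtain ⟨W, hW, hfix⟩ := hM.exists_finset hx.1.finite_image.toFinset
  refine ⟨?_, fun g _ h _ j _ => ?_⟩
  · obtain ⟨V, hV, hc⟩ := hx.1
    obtain ⟨V', hV', hc'⟩ := hy.1
    refine ⟨V ⊓ (V' ⊓ W), L.inf_mem hV (L.inf_mem hV' hW), fun g hg k hk s hs s' hs' => ?_⟩
    simp only [cup]
    rw [hc k hk s' ⟨hs'.1, hs'.2.1⟩, hc' g hg s ⟨hs.1, hs.2.2.1⟩, mul_smul,
      hfix s hs.2.2.2 (x k) (by simp)]
  · simp only [d2, cup, smul_pairing, ← mul_smul,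
      Levels.Z1_apply_mul hy (Subgroup.mem_top g) (Subgroup.mem_top h),
      Levels.Z1_apply_mul hx (Subgroup.mem_top h) (Subgroup.mem_top j), smul_add, map_add,
      AddMonoidHom.add_apply]
    abel

lemma cup_d0_left_mem (hM : L.Smooth M) {x : Γ → M} (hx : x ∈ Levels.B1 (⊤ : Subgroup Γ) M)
    {y : Γ → Dual χ M} (hy : y ∈ L.Z1 ⊤ (Dual χ M)) : cup x y ∈ L.B2 ⊤ (Mu χ) := by
  obtain ⟨m, hm⟩ := hx
  refine ⟨fun g => -Mu.of χ (Dual.hom χ M (y g) (g • m)),
    (const1_pairing hM hy.1 m).comp Neg.neg, fun g _ h _ => ?_⟩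
  simp only [d1, cup, hm h (Subgroup.mem_top h), d0, smul_neg, smul_pairing, smul_sub, ← mul_smul,
    Levels.Z1_apply_mul hy (Subgroup.mem_top g) (Subgroup.mem_top h), map_sub, map_add,
    AddMonoidHom.add_apply]
  abel

lemma cup_d0_right_mem {x : Γ → M} (hx : x ∈ L.Z1 ⊤ M) {y : Γ → Dual χ M}
    (hy : y ∈ Levels.B1 (⊤ : Subgroup Γ) (Dual χ M)) : cup x y ∈ L.B2 ⊤ (Mu χ) := by
  obtain ⟨n, hn⟩ := hy
  refine ⟨fun g => Mu.of χ (Dual.hom χ M n (x g)), hx.1.comp _, fun g _ h _ => ?_⟩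
  simp only [d1, cup, hn g (Subgroup.mem_top g), d0, smul_pairing,
    Levels.Z1_apply_mul hx (Subgroup.mem_top g) (Subgroup.mem_top h), map_sub, map_add,
    AddMonoidHom.sub_apply]
  abel

variable (I : InvDatum χ L) (hM : L.Smooth M)

/-- The invariant of a cup product, as a homomorphism in the second variable. -/
def pairAux (x : ↥(L.Z1 ⊤ M)) : ↥(L.Z1 ⊤ (Dual χ M)) →+ ZMod p :=
  AddMonoidHom.mk' (fun y => I.inv ⊤ (cup x.1 y.1)) fun y y' => by
    rw [AddSubgroup.coe_add, cup_add_right,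
      I.inv_add ⊤ L.top_mem _ (cup_mem_Z2 hM x.2 y.2) _ (cup_mem_Z2 hM x.2 y'.2)]

/-- The pairing of classes of degree one. -/
def pair : H1 L M →+ H1 L (Dual χ M) →+ ZMod p :=
  QuotientAddGroup.lift _
    (AddMonoidHom.mk' (fun x => QuotientAddGroup.lift _ (pairAux I hM x) fun y hy =>
      (I.inv_eq_zero_iff ⊤ L.top_mem _ (cup_mem_Z2 hM x.2 y.2)).mpr (cup_d0_right_mem x.2 hy))
      fun x x' => QuotientAddGroup.addMonoidHom_ext _ (AddMonoidHom.ext fun y => by
        show I.inv ⊤ (cup (x + x').1 y.1) = I.inv ⊤ (cup x.1 y.1) + I.inv ⊤ (cup x'.1 y.1)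
        rw [AddSubgroup.coe_add, cup_add_left,
          I.inv_add ⊤ L.top_mem _ (cup_mem_Z2 hM x.2 y.2) _ (cup_mem_Z2 hM x'.2 y.2)]))
    fun x hx => QuotientAddGroup.addMonoidHom_ext _ (AddMonoidHom.ext fun y =>
      (I.inv_eq_zero_iff ⊤ L.top_mem _ (cup_mem_Z2 hM x.2 y.2)).mpr (cup_d0_left_mem hM hx y.2))

/-- The pairing of classes is the invariant of the cup product. -/
@[simp] lemma pair_cls (x : ↥(L.Z1 ⊤ M)) (y : ↥(L.Z1 ⊤ (Dual χ M))) :
    pair I hM (cls1 L M x) (cls1 L (Dual χ M) y) = I.inv ⊤ (cup x.1 y.1) := rfl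

section Functorial

variable {N : Type} [AddCommGroup N] [DistribMulAction Γ N] (φ : M →+ N)
  (hφ : ∀ (g : Γ) m, φ (g • m) = g • φ m)

/-- Precomposition on the twisted duals. -/
def dualMap (χ : Γ →* (ZMod p)ˣ) (φ : M →+ N) : Dual χ N →+ Dual χ M :=
  AddMonoidHom.mk' (fun n => Dual.mk χ M ((Dual.hom χ N n).comp φ)) fun _ _ => rfl

omit [DistribMulAction Γ M] [DistribMulAction Γ N] in
@[simp] lemma hom_dualMap (n : Dual χ N) (m : M) :
    Dual.hom χ M (dualMap χ φ n) m = Dual.hom χ N n (φ m) := rfl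

include hφ in
lemma dualMap_smul (g : Γ) (n : Dual χ N) : dualMap χ φ (g • n) = g • dualMap χ φ n :=
  AddMonoidHom.ext fun m => by
    show Dual.hom χ N (g • n) (φ m) = (χ g : ZMod p) * Dual.hom χ N n (φ (g⁻¹ • m))
    rw [hφ, Dual.hom_smul]

/-- Maps and their transposes are adjoint for the pairing. -/
theorem pair_h1Map (hN : L.Smooth N) (x : H1 L M) (y : H1 L (Dual χ N)) :
    pair I hN (h1Map φ hφ x) y = pair I hM x (h1Map (dualMap χ φ) (dualMap_smul φ hφ) y) := by
  obtain ⟨x, rfl⟩ := cls1_surjective x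
  obtain ⟨y, rfl⟩ := cls1_surjective y
  rw [h1Map_cls, h1Map_cls, pair_cls, pair_cls]
  congr 1
  funext g h
  simp [cup, hφ]

end Functorial

/-- The value of an equivariant functional on a class of degree two. -/
def evalCls (n : M →+ ZMod p) (hn : n ∈ eqHom χ (MonoidHom.id Γ) M) : H2 L M →+ ZMod p :=
  QuotientAddGroup.lift _ (AddMonoidHom.mk' (fun f => I.eval f.1 n) fun f f' =>
    I.eval_add f.2 f'.2 hn)
    fun _ hf => I.eval_eq_zero_of_mem_B2 hf hn

/-- The evaluation of a class is the evaluation of its cocycle. -/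
@[simp] lemma evalCls_cls (n : M →+ ZMod p) (hn : n ∈ eqHom χ (MonoidHom.id Γ) M)
    (f : ↥(L.Z2 ⊤ M)) : evalCls I n hn (cls2 L M f) = I.eval f.1 n := rfl

section Sequences

variable {A B C : Type} [AddCommGroup A] [DistribMulAction Γ A] [AddCommGroup B]
  [DistribMulAction Γ B] [AddCommGroup C] [DistribMulAction Γ C] (E : Ses Γ A B C)

/-- The dual of a short exact sequence of modules killed by `p`. -/
def dualSes (χ : Γ →* (ZMod p)ˣ) (hB : ∀ b : B, p • b = 0) :
    Ses Γ (Dual χ C) (Dual χ B) (Dual χ A) where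
  i := dualMap χ E.q
  q := dualMap χ E.i
  i_smul := dualMap_smul E.q E.q_smul
  q_smul := dualMap_smul E.i E.i_smul
  inj n n' h := AddMonoidHom.ext fun c => by
    obtain ⟨b, rfl⟩ := E.surj c
    exact DFunLike.congr_fun (congrArg (Dual.hom χ B) h) b
  surj n := by
    obtain ⟨n', hn'⟩ := exists_factor hB E.i (Dual.hom χ A n) fun a ha => by
      rw [show a = 0 from E.inj (by rw [ha, map_zero]), map_zero]
    exact ⟨Dual.mk χ B n', AddMonoidHom.ext hn'⟩
  exact n := by
    refine ⟨fun h => ?_, ?_⟩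
    · refine ⟨Dual.mk χ C (AddMonoidHom.mk' (fun c => Dual.hom χ B n (E.lift c)) fun c c' => ?_),
        AddMonoidHom.ext fun b => ?_⟩
      · obtain ⟨a, ha⟩ := (E.exact (E.lift (c + c') - (E.lift c + E.lift c'))).mp (by
          rw [map_sub, map_add, E.q_lift, E.q_lift, E.q_lift, sub_self])
        rw [← map_add, ← sub_eq_zero, ← map_sub, ← ha]
        exact DFunLike.congr_fun (congrArg (Dual.hom χ A) h) a
      · obtain ⟨a, ha⟩ := (E.exact (E.lift (E.q b) - b)).mp (by rw [map_sub, E.q_lift, sub_self])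
        show Dual.hom χ B n (E.lift (E.q b)) = Dual.hom χ B n b
        rw [← sub_eq_zero, ← map_sub, ← ha]
        exact DFunLike.congr_fun (congrArg (Dual.hom χ A) h) a
    · rintro ⟨m, rfl⟩
      exact AddMonoidHom.ext fun a => by
        show Dual.hom χ C m (E.q (E.i a)) = 0
        rw [E.q_i, map_zero]

/-- A fixed element of the twisted dual is an equivariant functional. -/
lemma hom_mem_eqHom {n : Dual χ M} (hn : n ∈ h0Sub Γ (Dual χ M)) :
    Dual.hom χ M n ∈ eqHom χ (MonoidHom.id Γ) M := fun g m => by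
  conv_lhs => rw [← hn g]
  exact Dual.hom_smul_smul χ M g n m

/-- The connecting maps are adjoint up to sign. -/
theorem pair_delta (hB : ∀ b : B, p • b = 0) (hsB : L.Smooth B)
    (hsB' : L.Smooth (Dual χ B)) (hC : L.Smooth C) (x : H1 L C) (n : h0Sub Γ (Dual χ A)) :
    pair I hC x ((dualSes E χ hB).delta0 hsB' n) =
      -evalCls I (Dual.hom χ A n.1) (hom_mem_eqHom n.2) (E.delta1 hsB x) := by
  obtain ⟨z, rfl⟩ := cls1_surjective x
  obtain ⟨n, hn⟩ := n
  obtain ⟨m, rfl⟩ := (dualSes E χ hB).surj n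
  rw [(dualSes E χ hB).delta0_apply hsB' hn, E.delta1_cls,
    E.delta1Z_apply hsB z (x := fun g => E.lift (z.1 g)) (z.2.1.comp E.lift) (fun _ => E.q_lift _),
    pair_cls, evalCls_cls]
  set y := (dualSes E χ hB).delta0Fun hsB' m hn
  set d := E.delta1Fun hsB (fun g => E.lift (z.1 g)) (z.2.1.comp E.lift)
    (fun g k => by simp only [E.q_lift]; exact z.2.2 g (Subgroup.mem_top g) k (Subgroup.mem_top k))
  have hev : (fun g k => Mu.of χ (Dual.hom χ A ((dualSes E χ hB).q m) (d.1 g k))) ∈ L.Z2 ⊤ (Mu χ) :=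
    InvDatum.eval_comp_mem d.2 (hom_mem_eqHom hn)
  show _ = -I.eval d.1 (Dual.hom χ A ((dualSes E χ hB).q m))
  rw [eq_neg_iff_add_eq_zero, InvDatum.eval,
    ← I.inv_add ⊤ L.top_mem _ (cup_mem_Z2 hC z.2 y.2) _ hev,
    I.inv_eq_zero_iff ⊤ L.top_mem _ (add_mem (cup_mem_Z2 hC z.2 y.2) hev)]
  refine ⟨fun g => Mu.of χ (Dual.hom χ B m (E.lift (z.1 g))),
    z.2.1.comp (fun c => Mu.of χ (Dual.hom χ B m (E.lift c))), fun g _ h _ => ?_⟩
  show Mu.of χ (Dual.hom χ C (y.1 g) (g • z.1 h)) +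
    Mu.of χ (Dual.hom χ B m (E.i (d.1 g h))) = _
  have hy : ∀ b, Dual.hom χ C (y.1 g) (E.q b) = Dual.hom χ B (g • m - m) b := fun b =>
    DFunLike.congr_fun (congrArg (Dual.hom χ B) ((dualSes E χ hB).i_delta0Fun hsB' m hn g)) b
  rw [show g • z.1 h = E.q (g • E.lift (z.1 h)) by rw [E.q_smul, E.q_lift], hy, E.i_delta1Fun]
  simp only [d1, smul_pairing, map_sub, map_add, AddMonoidHom.sub_apply]
  abel

end Sequences

/-- Fixed elements of the twisted dual are the equivariant functionals. -/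
lemma ldim_h0Sub_dual :
    ldim p (h0Sub Γ (Dual χ M)) = ldim p (eqHom χ (MonoidHom.id Γ) M) :=
  ldim_congr p
    { toFun := fun n => ⟨Dual.hom χ M n.1, hom_mem_eqHom n.2⟩
      invFun := fun n => ⟨Dual.mk χ M n.1, fun g => AddMonoidHom.ext fun m => by
        show (χ g : ZMod p) * n.1 (g⁻¹ • m) = n.1 m
        have h := n.2 g (g⁻¹ • m)
        rw [MonoidHom.id_apply, smul_inv_smul] at h
        exact h.symm⟩
      left_inv := fun _ => rfl
      right_inv := fun _ => rfl }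

/-- A module killed by `p` is separated by its functionals. -/
lemma eq_zero_of_forall_hom_aux {A : Type} [AddCommGroup A] [Module (ZMod p) A] [Finite A] (w : A)
    (h : ∀ φ : A →+ ZMod p, φ w = 0) : w = 0 := by
  refine (Module.finBasis (ZMod p) A).ext_elem fun i => ?_
  rw [map_zero, Finsupp.zero_apply]
  exact h ((Module.finBasis (ZMod p) A).coord i).toAddMonoidHom

/-- Functionals to `ZMod p` separate the points of a group killed by `p`. -/
lemma eq_zero_of_forall_hom {A : Type} [AddCommGroup A] [Finite A] (hA : ∀ a : A, p • a = 0) (w : A)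
    (h : ∀ φ : A →+ ZMod p, φ w = 0) : w = 0 :=
  @eq_zero_of_forall_hom_aux p hp A _ (AddCommGroup.zmodModule hA) _ w h

/-- Equivariant functionals on the twisted dual are the fixed elements. -/
lemma ldim_eqHom_dual [Finite M] (hM : ∀ m : M, p • m = 0) :
    ldim p (eqHom χ (MonoidHom.id Γ) (Dual χ M)) = ldim p (h0Sub Γ M) := by
  let : Module (ZMod p) M := AddCommGroup.zmodModule hM
  let ev : M →+ (Dual χ M →+ ZMod p) :=
    AddMonoidHom.mk' (fun m => AddMonoidHom.mk' (fun n => Dual.hom χ M n m) fun _ _ => rfl)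
      fun m m' => AddMonoidHom.ext fun n => map_add (Dual.hom χ M n) m m'
  have hsep : ∀ m : M, (∀ n : Dual χ M, Dual.hom χ M n m = 0) → m = 0 := fun m h => by
    refine (Module.finBasis (ZMod p) M).ext_elem fun i => ?_
    rw [map_zero, Finsupp.zero_apply]
    exact h (Dual.mk χ M ((Module.finBasis (ZMod p) M).coord i).toAddMonoidHom)
  have hinj : Function.Injective ev :=
    (injective_iff_map_eq_zero ev).mpr fun m hm => hsep m fun n => DFunLike.congr_fun hm n
  have : Finite (Dual χ M →+ ZMod p) := DFunLike.finite _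
  have hbij : Function.Bijective ev :=
    hinj.bijective_of_nat_card_le (le_of_eq (by
      rw [card_homZMod (A := Dual χ M) (fun n => AddMonoidHom.ext fun m => by
        show p • Dual.hom χ M n m = 0
        rw [nsmul_eq_mul, ZMod.natCast_self, zero_mul])]
      exact card_homZMod hM))
  have hiff : ∀ m : M, ev m ∈ eqHom χ (MonoidHom.id Γ) (Dual χ M) ↔ m ∈ h0Sub Γ M := fun m => by
    constructor
    · intro h g
      have h0 : g⁻¹ • m - m = 0 := hsep _ fun n => by
        have hh : Dual.hom χ M (g • n) m = (χ g : ZMod p) * Dual.hom χ M n m := h g n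
        rw [Dual.hom_smul] at hh
        rw [map_sub, (Units.isUnit (χ g)).mul_left_cancel hh, sub_self]
      conv_lhs => rw [← sub_eq_zero.mp h0, smul_inv_smul]
    · intro h g n
      show Dual.hom χ M (g • n) m = (χ g : ZMod p) * Dual.hom χ M n m
      rw [Dual.hom_smul, h g⁻¹]
  exact (ldim_congr p (Equiv.ofBijective (fun m : h0Sub Γ M => (⟨ev m.1, (hiff m.1).mpr m.2⟩ :
      eqHom χ (MonoidHom.id Γ) (Dual χ M)))
    ⟨fun a b h => Subtype.ext (hinj (congrArg Subtype.val h)), fun e => by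
      obtain ⟨m, hm⟩ := hbij.2 e.1
      exact ⟨⟨m, (hiff m).mp (hm ▸ e.2)⟩, Subtype.ext hm⟩⟩)).symm

end FermatAgent.CFT.Pairing
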