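import Fermat.Agent.CFT.Pairing.LocalMu

/-!
Perfectness of the local pairing in degree one.
-/

set_option autoImplicit false

noncomputable section

open scoped Classical

namespace FermatAgent.CFT.Pairing

open Coh Euler Local LocalEuler IntermediateField

variable {q : ℕ} [hq : Fact q.Prime] {p : ℕ} [hp : Fact p.Prime] {χ : Gal' q →* (ZMod p)ˣ}
  (R : RootDatum χ) {U : Subgroup (Gal' q)} (hUn : U.Normal) (hUL : U ∈ LL q) (hUχ : U ≤ χ.ker)

include hUn hUL hUχ in
/-- The pairing kills only zero on modules induced from roots of unity. -/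
theorem eq_zero_of_pair_indMu [U.FiniteIndex] (hS : (LL q).Smooth (Ind U (Mu χ)))
    (x : H1 (LL q) (Ind U (Mu χ)))
    (h : ∀ y, pair (invDatum χ R.prim R.act) hS x y = 0) : x = 0 := by
  have := finiteDimensional_fixedField hUL
  obtain ⟨F, hFd, rfl⟩ : ∃ (F : IntermediateField ℚ_[q] (PadicAlgCl q)),
      FiniteDimensional ℚ_[q] F ∧ F.fixingSubgroup = U :=
    ⟨fixedField U, inferInstance, fixingSubgroup_fixedField_of_mem hUL⟩
  have := hFd
  exact eq_zero_of_pair_ind_mu R hUχ hUn hS x h

include hUn hUL hUχ in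
/-- The pairing kills only zero on induced modules. -/
theorem eq_zero_of_pair_ind [U.FiniteIndex] {X : Type} [AddCommGroup X] [Module (ZMod p) X]
    [Finite X] [DistribMulAction (Gal' q) X] (hX : ∀ g ∈ U, ∀ x : X, g • x = x)
    (hS : (LL q).Smooth (Ind U X)) (x : H1 (LL q) (Ind U X))
    (h : ∀ y, pair (invDatum χ R.prim R.act) hS x y = 0) : x = 0 := by
  set I := invDatum χ R.prim R.act
  have hSμ : (LL q).Smooth (Ind U (Mu χ)) := smooth_ind hUL I.smooth_mu
  set b := Module.finBasis (ZMod p) X
  have hc : ∀ i, h1Map (L := LL q) (muCoord χ U (b.coord i)) (muCoord_smul χ hUχ hX _) x = 0 :=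
    fun i => eq_zero_of_pair_indMu R hUn hUL hUχ hSμ _ fun y => by
      rw [pair_h1Map I hS _ _ hSμ]
      exact h _
  obtain ⟨z, rfl⟩ := cls1_surjective x
  have e : z = ∑ i, z1Map (L := LL q) (muEmbed χ U (b i)) (muEmbed_smul χ hUχ hX _)
      (z1Map (L := LL q) (muCoord χ U (b.coord i)) (muCoord_smul χ hUχ hX _) z) :=
    Subtype.ext (funext fun g => by
      rw [AddSubgroup.val_finsetSum, Finset.sum_apply]
      simp only [z1Map_apply]
      exact (sum_muEmbed_muCoord χ (z.1 g)).symm)
  rw [e, map_sum]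
  refine Finset.sum_eq_zero fun i _ => ?_
  rw [← h1Map_cls, ← h1Map_cls, hc i, map_zero]

variable {M : Type} [AddCommGroup M] [DistribMulAction (Gal' q) M] [Finite M]

include hUn hUL hUχ R in
/-- The dual has the same first cohomology exponent. -/
lemma ldim_H1_dual (hM : Good p U M) :
    ldim p (H1 (LL q) (Dual χ M)) = ldim p (H1 (LL q) M) := by
  have : Finite (Dual χ M) := inferInstance
  have h : ldim p (Dual χ M) = ldim p M := by
    rw [ldim, ldim, show Nat.card (Dual χ M) = Nat.card M from card_homZMod hM.killed]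
  rw [(finite_H1_and_ldim R hUn hUL hUχ _ (hM.dual hUχ)).2,
    (finite_H1_and_ldim R hUn hUL hUχ M hM).2, ldim_h0Sub_dual, ldim_eqHom_dual hM.killed, h]
  ring

include hUn hUL hUχ in
/-- The local pairing is perfect once it has trivial left kernel. -/
theorem bijective_of_injective (hM : Good p U M) (hS : (LL q).Smooth M)
    (h : ∀ x, (∀ y, pair (invDatum χ R.prim R.act) hS x y = 0) → x = 0) :
    Function.Bijective (pair (invDatum χ R.prim R.act) hS) := by
  have := (finite_H1_and_ldim R hUn hUL hUχ M hM).1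
  have := (finite_H1_and_ldim R hUn hUL hUχ _ (hM.dual hUχ)).1
  have := DFunLike.finite (H1 (LL q) (Dual χ M) →+ ZMod p)
  have hk : ∀ y : H1 (LL q) (Dual χ M), p • y = 0 := nsmul_H1_eq_zero (hM.dual hUχ).killed
  have hinj : Function.Injective (pair (invDatum χ R.prim R.act) hS) :=
    (injective_iff_map_eq_zero _).mpr fun x hx => h x fun y => DFunLike.congr_fun hx y
  refine hinj.bijective_of_nat_card_le (le_of_eq ?_)
  rw [card_homZMod hk, card_eq_pow_ldim hk,
    card_eq_pow_ldim (p := p) (nsmul_H1_eq_zero hM.killed), ldim_H1_dual R hUn hUL hUχ hM]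

/-- The kernel of a sum map as a short exact sequence. -/
def totalSes {Γ : Type} [Group Γ] (U : Subgroup Γ) [U.FiniteIndex] (M : Type) [AddCommGroup M]
    [DistribMulAction Γ M] : Ses Γ (TotalKer U M) (Ind U M) M where
  i := TotalKer.incl U M
  q := Ind.total
  i_smul := TotalKer.incl_smul U M
  q_smul := Ind.total_smul
  inj := TotalKer.incl_injective U M
  surj := Ind.total_surjective
  exact _ := ⟨TotalKer.exists_incl U M, fun ⟨x, hx⟩ => hx ▸ TotalKer.total_incl U M x⟩

include hUn hUL hUχ in
/-- The local pairing is perfect. -/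
theorem pair_bijective (hM : Good p U M) (hS : (LL q).Smooth M) :
    Function.Bijective (pair (invDatum χ R.prim R.act) hS) := by
  refine bijective_of_injective R hUn hUL hUχ hM hS fun x hx => ?_
  have := (LL q).finiteIndex hUL
  set I := invDatum χ R.prim R.act
  set T := lSet R hUn hUL hUχ
  let : Module (ZMod p) M := AddCommGroup.zmodModule hM.killed
  set E := totalSes U M
  have hB : Good p U (Ind U M) :=
    ⟨fun g hg φ => Ind.ext fun c => by
      rw [Ind.smul_apply, smul_coset_of_mem U hUn le_rfl (inv_mem hg), hM.triv g hg],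
     fun φ => Ind.ext fun c => hM.killed (φ c)⟩
  have hA : Good p U (TotalKer U M) := hB.of_injective E.i E.inj E.i_smul
  have hsB := T.smooth hB
  have hsA := T.smooth hA
  have hB' := hB.dual hUχ
  have hsB' := T.smooth hB'
  set E' := dualSes E χ hB.killed
  -- the class lifts
  have hδ : E.delta1 hsB x = 0 := by
    obtain ⟨z, rfl⟩ := cls1_surjective x
    obtain ⟨d, hd⟩ := cls2_surjective (E.delta1 hsB (cls1 (LL q) M z))
    rw [← hd, cls2_eq_zero_iff]
    refine I.mem_B2_of_eval hUn hUL hUχ hA.triv d.2 fun n hn => ?_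
    have hn0 : Dual.mk χ (TotalKer U M) n ∈ h0Sub (Gal' q) (Dual χ (TotalKer U M)) := fun g =>
      AddMonoidHom.ext fun a => by
        show (χ g : ZMod p) * n (g⁻¹ • a) = n a
        have h := hn g (g⁻¹ • a)
        rw [MonoidHom.id_apply, smul_inv_smul] at h
        exact h.symm
    have h1 := pair_delta I E hB.killed hsB hsB' hS (cls1 (LL q) M z) ⟨_, hn0⟩
    rw [hx, eq_comm, neg_eq_zero, ← hd, evalCls_cls] at h1
    exact h1
  obtain ⟨w, hw⟩ : x ∈ (h1Map (L := LL q) E.q E.q_smul).range := by
    rw [E.h1q_exact hsB]; exact hδ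
  -- finiteness
  have := T.finH1 _ hA
  have := T.finH1 _ hB
  have := T.finH1 _ hM
  have := T.finH1 _ hB'
  have := T.finH1 _ (hA.dual hUχ)
  have := T.finH1 _ (hM.dual hUχ)
  have hbij : Function.Bijective (pair I hsB) :=
    bijective_of_injective R hUn hUL hUχ hB hsB fun y hy =>
      eq_zero_of_pair_ind R hUn hUL hUχ hM.triv hsB y hy
  -- the annihilator of the kernel of the dual restriction
  set S := (h1Map (L := LL q) E'.q E'.q_smul).ker
  let res : H1 (LL q) (Ind U M) →+ (S →+ ZMod p) :=
    AddMonoidHom.mk' (fun v => (pair I hsB v).comp S.subtype) fun v v' => by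
      rw [map_add, AddMonoidHom.add_comp]
  have hres : Function.Surjective res := fun φ => by
    obtain ⟨θ, hθ⟩ := exists_factor (nsmul_H1_eq_zero hB'.killed) S.subtype φ fun a ha => by
      rw [show a = 0 from Subtype.ext ha, map_zero]
    obtain ⟨v, hv⟩ := hbij.2 θ
    exact ⟨v, AddMonoidHom.ext fun a => (DFunLike.congr_fun hv a.1).trans (hθ a)⟩
  have hle : (h1Map (L := LL q) E.i E.i_smul).range ≤ res.ker := by
    rintro _ ⟨v, rfl⟩
    refine AddMonoidHom.ext fun a => ?_
    show pair I hsB (h1Map E.i E.i_smul v) a.1 = 0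
    rw [pair_h1Map I hsA E.i E.i_smul hsB]
    exact (congrArg (pair I hsA v) a.2).trans (map_zero _)
  have hwS : w ∈ res.ker := AddMonoidHom.ext fun a => by
    obtain ⟨u, hu⟩ : a.1 ∈ (h1Map (L := LL q) E'.i E'.i_smul).range := by
      rw [E'.h1_exact hsB']; exact a.2
    show pair I hsB w a.1 = 0
    rw [← hu]
    refine Eq.trans ?_ (hx u)
    rw [← hw, pair_h1Map I hsB E.q E.q_smul hS]
    rfl
  -- dimensions
  have hle2 : ldim p res.ker ≤ ldim p (h1Map (L := LL q) E.i E.i_smul).range := by
    have := DFunLike.finite (S →+ ZMod p)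
    have eS : ldim p (S →+ ZMod p) = ldim p S := by
      rw [ldim, ldim, card_homZMod fun a => Subtype.ext (nsmul_H1_eq_zero hB'.killed a.1)]
    have a1 := ldim_eq_ker_add_range p res
    have a2 := ldim_range_of_surjective p res hres
    have a3 := (finite_H1_and_ldim R hUn hUL hUχ _ hB).2
    have a4 := (finite_H1_and_ldim R hUn hUL hUχ _ hA).2
    have a5 := (finite_H1_and_ldim R hUn hUL hUχ _ hM).2
    have b1 := ldim_of_exact p _ _ E.h0_exact
    have b2 := ldim_range_of_injective p _ E.h0_inj
    have b3 := ldim_of_exact p _ _ (E.h0q_exact hsB)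
    have b4 := ldim_of_exact p _ _ (E.delta0_exact hsB)
    have c1 := ldim_of_exact p _ _ E'.h0_exact
    have c2 := ldim_range_of_injective p _ E'.h0_inj
    have c3 := ldim_of_exact p _ _ (E'.h0q_exact hsB')
    have c4 := ldim_of_exact p _ _ (E'.delta0_exact hsB')
    have c5 : ldim p (h1Map (L := LL q) E'.i E'.i_smul).range = ldim p S := by
      rw [E'.h1_exact hsB']
    have d1 := ldim_eq_ker_add_range p (h1Map (L := LL q) E.i E.i_smul)
    have d2 := ldim_eq_ker_add_range p (h1Map (L := LL q) E'.i E'.i_smul)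
    have d3 := ldim_H1_dual R hUn hUL hUχ hM
    have f1 := ldim_h0Sub_dual (χ := χ) (M := Ind U M)
    have f2 := ldim_h0Sub_dual (χ := χ) (M := M)
    have f3 := ldim_h0Sub_dual (χ := χ) (M := TotalKer U M)
    have g1 : ldim p (Ind U M) = ldim p (TotalKer U M) + ldim p M :=
      ldim_short p E.i E.q E.inj E.surj (by ext b; exact (E.exact b).symm)
    have g2 : lC p q * ldim p (Ind U M) = lC p q * ldim p (TotalKer U M) + lC p q * ldim p M := by
      rw [g1, mul_add]
    omega
  have heq : (h1Map (L := LL q) E.i E.i_smul).range = res.ker := by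
    refine AddSubgroup.eq_of_le_of_card_ge hle ?_
    rw [card_eq_pow_ldim (p := p) fun a : res.ker => Subtype.ext (nsmul_H1_eq_zero hB.killed a.1),
      card_eq_pow_ldim (p := p)
        fun a : (h1Map (L := LL q) E.i E.i_smul).range =>
          Subtype.ext (nsmul_H1_eq_zero hB.killed a.1)]
    exact Nat.pow_le_pow_right hp.out.pos hle2
  rw [← heq, E.h1_exact hsB] at hwS
  rw [← hw]
  exact hwS

end FermatAgent.CFT.Pairing
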