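import Fermat.Agent.CFT.Pairing.Loc
import Fermat.Agent.CFT.Pairing.Local
import Fermat.Agent.CFT.Euler.Vanish

/-!
The image of the global classes in the product of the local ones is its own annihilator, and
consequences for classes with local conditions.
-/

set_option autoImplicit false

noncomputable section

open scoped Classical

namespace FermatAgent.CFT.Pairing

open Coh Euler Local LocalEuler GaloisBasic Global

variable {p : ℕ} [hp : Fact p.Prime] {S : Finset Nat.Primes} {U : Subgroup GQ} (T : Setting p S U)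

/-- The root of unity at a rational prime. -/
def rootAt (p : ℕ) [Fact p.Prime] (q : ℕ) [Fact q.Prime] : RootDatum (chiL p q) :=
  ⟨Global.emb q 1 (zet p), zetL_spec p q, apply_zetL p q⟩

/-- The cohomology in degree one at a prime of the set. -/
abbrev H1v (v : S) (M : Type) [AddCommGroup M] [DistribMulAction GQ M] : Type :=
  H1 (LL ((v : Nat.Primes) : ℕ)) (Res (localGaloisToGlobal ((v : Nat.Primes) : ℕ)) M)

/-- Localisation at a prime of the set. -/
def locAt (v : S) (M : Type) [AddCommGroup M] [DistribMulAction GQ M] :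
    H1 (LS S) M →+ H1v v M :=
  loc1 (sDatum T.hp2 T.hpS) v M

/-- All the localisations. -/
def locs (M : Type) [AddCommGroup M] [DistribMulAction GQ M] :
    H1 (LS S) M →+ ∀ v : S, H1v v M :=
  AddMonoidHom.mk' (fun x v => locAt T v M x) fun x x' => funext fun v => map_add (locAt T v M) x x'

lemma locs_apply (M : Type) [AddCommGroup M] [DistribMulAction GQ M] (x : H1 (LS S) M) (v : S) :
    locs T M x v = locAt T v M x := rfl

/-- Functionals on a restricted module. -/
def toDR (v : S) (M : Type) [AddCommGroup M] [DistribMulAction GQ M] :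
    Res (localGaloisToGlobal ((v : Nat.Primes) : ℕ)) (Dual (chiQ p) M) →+
      Dual (chiL p ((v : Nat.Primes) : ℕ)) (Res (localGaloisToGlobal ((v : Nat.Primes) : ℕ)) M) :=
  toDualRes (sDatum T.hp2 T.hpS) v M

lemma toDR_smul (v : S) (M : Type) [AddCommGroup M] [DistribMulAction GQ M]
    (a : Gal' ((v : Nat.Primes) : ℕ))
    (n : Res (localGaloisToGlobal ((v : Nat.Primes) : ℕ)) (Dual (chiQ p) M)) :
    toDR T v M (a • n) = a • toDR T v M n :=
  toDualRes_smul (sDatum T.hp2 T.hpS) v M a n

lemma toDR_bijective (v : S) (M : Type) [AddCommGroup M] [DistribMulAction GQ M] :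
    Function.Bijective (toDR T v M) :=
  toDualRes_bijective (sDatum T.hp2 T.hpS) v M

/-- The pairing at a prime of the set. -/
def pairV (v : S) {M : Type} [AddCommGroup M] [DistribMulAction GQ M] (hS : (LS S).Smooth M) :
    H1v v M →+ H1v v (Dual (chiQ p) M) →+ ZMod p :=
  pairAt (sDatum T.hp2 T.hpS) v M hS

variable {M : Type} [AddCommGroup M] [DistribMulAction GQ M] [Finite M]

/-- A map between restricted modules. -/
def resMap {A B : Type} [AddCommGroup A] [DistribMulAction GQ A] [AddCommGroup B]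
    [DistribMulAction GQ B] (q : ℕ) [Fact q.Prime] (φ : A →+ B) :
    Res (localGaloisToGlobal q) A →+ Res (localGaloisToGlobal q) B :=
  AddMonoidHom.mk' (fun a => Res.of (localGaloisToGlobal q) B (φ (show A from a))) fun _ _ =>
    map_add φ _ _

lemma resMap_smul {A B : Type} [AddCommGroup A] [DistribMulAction GQ A] [AddCommGroup B]
    [DistribMulAction GQ B] (q : ℕ) [Fact q.Prime] (φ : A →+ B)
    (hφ : ∀ (g : GQ) a, φ (g • a) = g • φ a) (d : Gal' q) (a : Res (localGaloisToGlobal q) A) :
    resMap q φ (d • a) = d • resMap q φ a :=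
  hφ (localGaloisToGlobal q d) a

include T

section
omit [Finite M]

lemma normal_at (v : S) : (U.comap (localGaloisToGlobal ((v : Nat.Primes) : ℕ))).Normal :=
  T.normal.comap _

lemma mem_at (v : S) : U.comap (localGaloisToGlobal ((v : Nat.Primes) : ℕ)) ∈
    LL ((v : Nat.Primes) : ℕ) :=
  (sDatum T.hp2 T.hpS).hLv v _ ((LS S).comap_mem _ T.level)

lemma le_ker_at (v : S) :
    U.comap (localGaloisToGlobal ((v : Nat.Primes) : ℕ)) ≤ (chiL p ((v : Nat.Primes) : ℕ)).ker :=
      fun _ hd => T.le_ker hd

omit hp T in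
/-- Good modules are good at the places of `S`. -/
lemma good_at (hM : Good p U M) (v : S) :
    Good p (U.comap (localGaloisToGlobal ((v : Nat.Primes) : ℕ)))
      (Res (localGaloisToGlobal ((v : Nat.Primes) : ℕ)) M) :=
  ⟨fun _ hd m => hM.triv _ hd m, fun m => hM.killed m⟩

end

/-- The local first cohomology is finite. -/
lemma finite_H1v (hM : Good p U M) (v : S) : Finite (H1v v M) :=
  (finite_H1_and_ldim (rootAt p _) (normal_at T v) (mem_at T v) (le_ker_at T v) _
    (good_at hM v)).1

/-- The local terms of the Euler characteristic formula. -/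
lemma ldim_eqHom_dual_at (hM : Good p U M) (v : S) :
    ldim p (eqHom (chiQ p) (localGaloisToGlobal ((v : Nat.Primes) : ℕ)) (Dual (chiQ p) M)) =
      ldim p (h0Sub (Gal' ((v : Nat.Primes) : ℕ))
        (Res (localGaloisToGlobal ((v : Nat.Primes) : ℕ)) M)) := by
  rw [← ldim_eqHom_dual (p := p) (χ := (chiQ p).comp (localGaloisToGlobal ((v : Nat.Primes) : ℕ)))
    (M := Res (localGaloisToGlobal ((v : Nat.Primes) : ℕ)) M) hM.killed]
  refine ldim_congr p ⟨fun n => ⟨n.1, fun d f => ?_⟩, fun n => ⟨n.1, fun d f => ?_⟩,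
    fun _ => rfl, fun _ => rfl⟩
  · show n.1 (d • toDR T v M (show Res (localGaloisToGlobal ((v : Nat.Primes) : ℕ))
      (Dual (chiQ p) M) from f)) = _
    rw [← toDR_smul]
    exact n.2 d f
  · have h := n.2 d
      (toDR T v M (show Res (localGaloisToGlobal ((v : Nat.Primes) : ℕ)) (Dual (chiQ p) M) from f))
    rw [MonoidHom.id_apply, ← toDR_smul] at h
    exact h

/-- The local Euler characteristic formula in the first degree. -/
lemma ldim_H1v (hM : Good p U M) (v : S) :
    ldim p (H1v v M) =
      ldim p (eqHom (chiQ p) (localGaloisToGlobal ((v : Nat.Primes) : ℕ)) (Dual (chiQ p) M)) +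
      ldim p (eqHom (chiQ p) (localGaloisToGlobal ((v : Nat.Primes) : ℕ)) M) +
      lC p ((v : Nat.Primes) : ℕ) * ldim p M := by
  rw [ldim_eqHom_dual_at T hM v]
  exact (finite_H1_and_ldim (rootAt p _) (normal_at T v) (mem_at T v) (le_ker_at T v) _
    (good_at hM v)).2

lemma pairAt_bijective (hM : Good p U M) (v : S) :
    Function.Bijective (pairV T v (T.smooth hM)) := by
  have hb := pair_bijective (rootAt p _) (normal_at T v) (mem_at T v) (le_ker_at T v)
    (good_at hM v) (smooth_res (sDatum T.hp2 T.hpS) v M (T.smooth hM))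
  have he := h1Map_bijective (L := LL ((v : Nat.Primes) : ℕ)) (toDR T v M)
    (toDR_bijective T v M) (toDR_smul T v M)
  refine ⟨(injective_iff_map_eq_zero _).mpr fun x hx => hb.1 ?_, fun θ => ?_⟩
  · rw [map_zero]
    refine AddMonoidHom.ext fun y => ?_
    obtain ⟨y, rfl⟩ := he.2 y
    exact DFunLike.congr_fun hx y
  · obtain ⟨x, hx⟩ := hb.2 (θ.comp (AddEquiv.ofBijective _ he).symm.toAddMonoidHom)
    refine ⟨x, AddMonoidHom.ext fun y => ?_⟩
    refine (DFunLike.congr_fun hx (h1Map _ (toDR_smul T v M) y)).trans ?_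
    exact congrArg θ ((AddEquiv.ofBijective _ he).symm_apply_apply y)

/-- The sum of the local pairings. -/
def pairFam (hM : Good p U M) :
    (∀ v : S, H1v v M) →+ (∀ v : S, H1v v (Dual (chiQ p) M)) →+ ZMod p :=
  AddMonoidHom.mk' (fun x => AddMonoidHom.mk'
      (fun y => ∑ v : S, pairV T v (T.smooth hM) (x v) (y v)) fun y y' => by
        simp only [Pi.add_apply, map_add, Finset.sum_add_distrib])
    fun x x' => AddMonoidHom.ext fun y => by
      show ∑ v : S, pairV T v (T.smooth hM) ((x + x') v) (y v) = _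
      simp only [Pi.add_apply, map_add, AddMonoidHom.add_apply, Finset.sum_add_distrib]
      rfl

omit [Finite M] in
lemma pairFam_apply (hM : Good p U M) (x : ∀ v : S, H1v v M)
    (y : ∀ v : S, H1v v (Dual (chiQ p) M)) :
    pairFam T hM x y = ∑ v : S, pairV T v (T.smooth hM) (x v) (y v) := rfl

omit [Finite M] in
lemma pairFam_single (hM : Good p U M) (x : ∀ v : S, H1v v M) (v : S)
    (η : H1v v (Dual (chiQ p) M)) :
    pairFam T hM x (Pi.single v η) = pairV T v (T.smooth hM) (x v) η := by
  rw [pairFam_apply, Finset.sum_eq_single v (fun w _ hw => by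
    rw [Pi.single_eq_of_ne hw, map_zero]) (fun h => absurd (Finset.mem_univ v) h),
    Pi.single_eq_same]

omit hp T in
lemma nsmul_fam {N : Type} [AddCommGroup N] [DistribMulAction GQ N] (hN : Good p U N)
    (x : ∀ v : S, H1v v N) : p • x = 0 :=
  funext fun v => nsmul_H1_eq_zero (good_at hN v).killed (x v)

lemma finite_fam {N : Type} [AddCommGroup N] [DistribMulAction GQ N] [Finite N] (hN : Good p U N) :
    Finite (∀ v : S, H1v v N) :=
  haveI : ∀ v : S, Finite (H1v v N) := finite_H1v T hN
  inferInstance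

lemma ldim_fam (hM : Good p U M) :
    ldim p (∀ v : S, H1v v M) =
      (∑ v : S, ldim p (eqHom (chiQ p) (localGaloisToGlobal ((v : Nat.Primes) : ℕ))
        (Dual (chiQ p) M))) +
        (∑ v : S, ldim p (eqHom (chiQ p) (localGaloisToGlobal ((v : Nat.Primes) : ℕ)) M)) +
        ldim p M := by
  have : ∀ v : S, Finite (H1v v M) := finite_H1v T hM
  rw [ldim_pi]
  simp only [ldim_H1v T hM, Finset.sum_add_distrib, ← Finset.sum_mul]
  congr 1
  rw [show (∑ v : S, lC p ((v : Nat.Primes) : ℕ)) = 1 from ?_, one_mul]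
  refine (Finset.sum_eq_single (⟨_, T.hpS⟩ : S) (fun w _ hw => ?_)
    (fun h => absurd (Finset.mem_univ _) h)).trans (if_pos rfl)
  exact if_neg fun h => hw (Subtype.ext (Subtype.ext h.symm))

lemma ldim_fam_dual (hM : Good p U M) :
    ldim p (∀ v : S, H1v v (Dual (chiQ p) M)) = ldim p (∀ v : S, H1v v M) := by
  have : ∀ v : S, Finite (H1v v M) := finite_H1v T hM
  have : ∀ v : S, Finite (H1v v (Dual (chiQ p) M)) := finite_H1v T (hM.dual T.le_ker)
  rw [ldim_pi, ldim_pi]
  refine Finset.sum_congr rfl fun v _ => ?_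
  rw [ldim_congr p (Equiv.ofBijective _ (h1Map_bijective (L := LL ((v : Nat.Primes) : ℕ))
    (toDR T v M) (toDR_bijective T v M) (toDR_smul T v M)))]
  exact ldim_H1_dual (rootAt p _) (normal_at T v) (mem_at T v) (le_ker_at T v) (good_at hM v)

lemma pairFam_bijective (hM : Good p U M) : Function.Bijective (pairFam T hM) := by
  have := finite_fam T hM
  have := finite_fam T (hM.dual T.le_ker)
  have := DFunLike.finite ((∀ v : S, H1v v (Dual (chiQ p) M)) →+ ZMod p)
  have hk := nsmul_fam (S := S) (hM.dual T.le_ker)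
  have hinj : Function.Injective (pairFam T hM) :=
    (injective_iff_map_eq_zero _).mpr fun x hx => funext fun v =>
      (pairAt_bijective T hM v).1 ((map_zero (pairV T v (T.smooth hM))).symm ▸
        AddMonoidHom.ext fun η => (pairFam_single T hM x v η).symm.trans (DFunLike.congr_fun hx _))
  refine hinj.bijective_of_nat_card_le (le_of_eq ?_)
  rw [card_homZMod hk, card_eq_pow_ldim hk, card_eq_pow_ldim (nsmul_fam (S := S) hM),
    ldim_fam_dual T hM]

omit [Finite M] in
lemma ker_locFam_dual : (locs T (Dual (chiQ p) M)).ker = shaH1 (sDatum T.hp2 T.hpS) M := by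
  ext x
  obtain ⟨z, rfl⟩ := cls1_surjective x
  constructor
  · intro h
    refine AddSubgroup.mem_map.mpr ⟨z, ⟨z.2, fun v => ?_⟩, rfl⟩
    obtain ⟨n, hn⟩ := cls1_eq_zero_iff.mp (congrFun h v)
    exact ⟨n, fun d => hn d (Subgroup.mem_top _)⟩
  · intro h
    obtain ⟨w, hw, hwz⟩ := AddSubgroup.mem_map.mp h
    rw [← hwz, AddMonoidHom.mem_ker]
    refine funext fun v => ?_
    obtain ⟨n, hn⟩ := (show w.1 ∈ (sDatum T.hp2 T.hpS).sha1 M from hw).2 v
    exact cls1_eq_zero_iff.mpr ⟨Res.of (localGaloisToGlobal ((v : Nat.Primes) : ℕ))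
      (Dual (chiQ p) M) n, fun d _ => hn d⟩

/-- Evaluation into the double dual. -/
def evDual (χ : GQ →* (ZMod p)ˣ) (M : Type) [AddCommGroup M] [DistribMulAction GQ M] :
    M →+ Dual χ (Dual χ M) :=
  AddMonoidHom.mk' (fun m => Dual.mk χ _
    (AddMonoidHom.mk' (fun n => Dual.hom χ M n m) fun _ _ => rfl))
    fun m m' => AddMonoidHom.ext fun n => map_add (Dual.hom χ M n) m m'

omit [Finite M] T in
lemma evDual_smul (g : GQ) (m : M) : evDual (chiQ p) M (g • m) = g • evDual (chiQ p) M m :=
  AddMonoidHom.ext (f := Dual.hom (chiQ p) _ (evDual (chiQ p) M (g • m)))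
    (g := Dual.hom (chiQ p) _ (g • evDual (chiQ p) M m)) fun n => by
    show Dual.hom _ M n (g • m) = (chiQ p g : ZMod p) * Dual.hom _ M (g⁻¹ • n) m
    rw [Dual.hom_smul, inv_inv, map_inv, ← mul_assoc, Units.mul_inv, one_mul]

omit T in
lemma evDual_bijective (hM : ∀ m : M, p • m = 0) : Function.Bijective (evDual (chiQ p) M) := by
  have hinj : Function.Injective (evDual (chiQ p) M) :=
    (injective_iff_map_eq_zero _).mpr fun m hm => eq_zero_of_forall_hom hM m fun φ =>
      DFunLike.congr_fun (congrArg (Dual.hom (chiQ p) _) hm) (Dual.mk (chiQ p) M φ)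
  have : Finite (Dual (chiQ p) (Dual (chiQ p) M)) := inferInstance
  refine hinj.bijective_of_nat_card_le (le_of_eq ?_)
  exact (card_homZMod (A := Dual (chiQ p) M) (dual_killed _ M)).trans (card_homZMod hM)

/-- The two kernels of localisation agree after evaluation into the double dual. -/
lemma ldim_ker_locFam (hM : Good p U M) :
    ldim p (locs T M).ker = ldim p (shaH1 (sDatum T.hp2 T.hpS) (Dual (chiQ p) M)) := by
  rw [← ker_locFam_dual]
  set e := h1Map (L := LS S) (evDual (chiQ p) M) evDual_smul with he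
  have hb : Function.Bijective e := h1Map_bijective _ (evDual_bijective hM.killed) evDual_smul
  have key : ∀ x, locs T M x = 0 ↔
      locs T (Dual (chiQ p) (Dual (chiQ p) M)) (e x) = 0 := fun x => by
    obtain ⟨z, rfl⟩ := cls1_surjective x
    have hv : ∀ v : S, locAt T v (Dual (chiQ p) (Dual (chiQ p) M)) (e (cls1 _ _ z)) =
        h1Map (L := LL ((v : Nat.Primes) : ℕ)) (resMap ((v : Nat.Primes) : ℕ) (evDual (chiQ p) M))
          (resMap_smul ((v : Nat.Primes) : ℕ) _ evDual_smul) (locAt T v M (cls1 _ _ z)) :=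
            fun v => rfl
    refine ⟨fun h => funext fun v => ?_, fun h => funext fun v => ?_⟩
    · rw [locs_apply, hv, show locAt T v M (cls1 _ _ z) = 0 from congrFun h v, map_zero]
      rfl
    · have hbv : Function.Bijective (resMap ((v : Nat.Primes) : ℕ) (evDual (chiQ p) M)) :=
        evDual_bijective (M := M) hM.killed
      refine (h1Map_bijective (L := LL ((v : Nat.Primes) : ℕ)) _ hbv
          (resMap_smul ((v : Nat.Primes) : ℕ) _ evDual_smul)).1
        (((hv v).symm.trans ?_).trans (map_zero _).symm)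
      exact congrFun h v
  refine ldim_congr p ⟨fun x => ⟨e x.1, (key x.1).mp x.2⟩,
    fun y => ⟨(AddEquiv.ofBijective e hb).symm y.1, (key _).mpr ?_⟩, fun x => ?_, fun y => ?_⟩
  · rw [show e ((AddEquiv.ofBijective e hb).symm y.1) = y.1 from
      (AddEquiv.ofBijective e hb).apply_symm_apply _]
    exact y.2
  · exact Subtype.ext ((AddEquiv.ofBijective e hb).symm_apply_apply _)
  · exact Subtype.ext ((AddEquiv.ofBijective e hb).apply_symm_apply _)

omit [Finite M] T in
lemma ldim_infFixed_dual :
    ldim p (infFixed (Dual (chiQ p) M)) =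
      ldim p (eqHom (chiQ p) (Subgroup.zpowers complexConjugation).subtype M) :=
  ldim_congr p
    { toFun := fun n => ⟨Dual.hom _ M n.1, fun d m => by
        have hd : (d : GQ) • n.1 = n.1 :=
          (Subgroup.zpowers_le.mpr
            (show complexConjugation ∈ MulAction.stabilizer GQ n.1 from n.2)) d.2
        conv_lhs => rw [← hd]
        exact Dual.hom_smul_smul _ M (d : GQ) n.1 m⟩
      invFun := fun n => ⟨Dual.mk _ M n.1, AddMonoidHom.ext fun m => by
        show (chiQ p complexConjugation : ZMod p) * n.1 (complexConjugation⁻¹ • m) = n.1 m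
        have h := n.2 ⟨complexConjugation, Subgroup.mem_zpowers _⟩ (complexConjugation⁻¹ • m)
        rw [Subgroup.subtype_apply, smul_inv_smul] at h
        exact h.symm⟩
      left_inv := fun _ => rfl
      right_inv := fun _ => rfl }

include T in
/-- The first cohomology through the second, and the formula for its size. -/
theorem ldim_H1_add (hM : Good p U M) :
    ldim p (H1 (LS S) M) + ldim p (eqHom (chiQ p) (MonoidHom.id GQ) M) + ldim p (infFixed M) =
      (∑ v : S, ldim p (eqHom (chiQ p) (localGaloisToGlobal ((v : Nat.Primes) : ℕ)) M)) +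
        ldim p (shaH1 (sDatum T.hp2 T.hpS) M) +
        ldim p (h0Sub GQ M) + ldim p M := by
  have h1 := T.euler_eq_zero M hM
  have h2 := (T.h2 hM).2
  simp only [euler] at h1
  omega

omit [Finite M] T in
/-- A subgroup orthogonal to another and large enough is its annihilator. -/
lemma mem_range_of_orthogonal {A A' B B' : Type} [AddCommGroup A] [AddCommGroup A']
    [AddCommGroup B] [AddCommGroup B'] [Finite B] [Finite B'] (f : A →+ B) (f' : A' →+ B')
    (β : B →+ B' →+ ZMod p) (hk : ∀ b : B, p • b = 0) (hk' : ∀ b : B', p • b = 0)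
    (hβ : Function.Bijective β) (horth : ∀ a a', β (f a) (f' a') = 0)
    (hdim : ldim p B ≤ ldim p f.range + ldim p f'.range) {x : B}
    (hx : ∀ a', β x (f' a') = 0) : ∃ a, f a = x := by
  have := DFunLike.finite (f'.range →+ ZMod p)
  let res : B →+ (f'.range →+ ZMod p) :=
    AddMonoidHom.mk' (fun u => (β u).comp f'.range.subtype) fun u u' => by
      rw [map_add, AddMonoidHom.add_comp]
  have hres : Function.Surjective res := fun φ => by
    obtain ⟨θ, hθ⟩ := exists_factor hk' f'.range.subtype φ fun a ha => by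
      rw [show a = 0 from Subtype.ext ha, map_zero]
    obtain ⟨u, hu⟩ := hβ.2 θ
    exact ⟨u, AddMonoidHom.ext fun a => (DFunLike.congr_fun hu a.1).trans (hθ a)⟩
  have hmem : ∀ u : B, (∀ a', β u (f' a') = 0) → u ∈ res.ker := fun u hu =>
    AddMonoidHom.ext fun a => by
      obtain ⟨a', ha'⟩ := a.2
      exact (congrArg (β u) ha'.symm).trans (hu a')
  have hle : f.range ≤ res.ker := by
    rintro _ ⟨a, rfl⟩
    exact hmem _ (horth a)
  have hker : ldim p res.ker ≤ ldim p f.range := by
    have eI : ldim p (f'.range →+ ZMod p) = ldim p f'.range := by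
      rw [ldim, ldim, card_homZMod fun a => Subtype.ext (hk' a.1)]
    have a1 := ldim_eq_ker_add_range p res
    have a2 := ldim_range_of_surjective p res hres
    omega
  have heq : f.range = res.ker := by
    refine AddSubgroup.eq_of_le_of_card_ge hle ?_
    rw [card_eq_pow_ldim (p := p) fun a : res.ker => Subtype.ext (hk a.1),
      card_eq_pow_ldim (p := p) fun a : f.range => Subtype.ext (hk a.1)]
    exact Nat.pow_le_pow_right hp.out.pos hker
  have h1 := hmem x hx
  rw [← heq] at h1
  exact h1

omit [Finite M] T hp in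
/-- The size of the elements with conditions at some indices where localisation is surjective. -/
lemma ldim_iInf_comap_add {A : Type} [AddCommGroup A] [Finite A] {ι : Type} {B : ι → Type}
    [∀ i, AddCommGroup (B i)] [∀ i, Finite (B i)] (loc : ∀ i, A →+ B i) (P : Finset ι)
    (C : ∀ i, AddSubgroup (B i)) (hsurj : ∀ x : ∀ i, B i, ∃ a, ∀ i ∈ P, loc i a = x i) :
    ldim p (⨅ i ∈ (P : Set ι), (C i).comap (loc i) : AddSubgroup A) + (∑ i ∈ P, ldim p (B i)) =
      ldim p A + ∑ i ∈ P, ldim p (C i) := by
  let f : A →+ ∀ i : {i : ι // i ∈ P}, B i.1 ⧸ C i.1 :=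
    AddMonoidHom.mk' (fun z (i : {i : ι // i ∈ P}) => QuotientAddGroup.mk' (C i.1) (loc i.1 z))
      fun z z' => funext fun i => by rw [map_add, map_add]; rfl
  have hf : Function.Surjective f := fun c => by
    choose r hr using fun i : {i : ι // i ∈ P} => QuotientAddGroup.mk'_surjective _ (c i)
    obtain ⟨z, hz⟩ := hsurj fun i => if h : i ∈ P then r ⟨i, h⟩ else 0
    refine ⟨z, funext fun i => ?_⟩
    show QuotientAddGroup.mk' _ (loc i.1 z) = c i
    rw [hz i.1 i.2, dif_pos i.2]
    exact hr i
  have hker : f.ker = ⨅ i ∈ (P : Set ι), (C i).comap (loc i) := by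
    ext z
    simp only [AddMonoidHom.mem_ker, AddSubgroup.mem_iInf, AddSubgroup.mem_comap, funext_iff]
    exact ⟨fun h i hi => (QuotientAddGroup.eq_zero_iff _).mp (h ⟨i, hi⟩),
      fun h i => (QuotientAddGroup.eq_zero_iff _).mpr (h i.1 i.2)⟩
  have a1 := ldim_eq_ker_add_range p f
  have a2 := ldim_range_of_surjective p f hf
  have a3 : ∀ i, ldim p (B i) = ldim p (C i) + ldim p (B i ⧸ C i) := fun i =>
    ldim_short p (C i).subtype (QuotientAddGroup.mk' (C i)) Subtype.val_injective
      (QuotientAddGroup.mk'_surjective _)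
      (by rw [QuotientAddGroup.ker_mk', AddSubgroup.range_subtype])
  have a4 : ldim p (∀ i : {i : ι // i ∈ P}, B i.1 ⧸ C i.1) = ∑ i ∈ P, ldim p (B i ⧸ C i) := by
    rw [ldim_pi]
    exact Finset.sum_coe_sort P (fun i => ldim p (B i ⧸ C i))
  rw [Finset.sum_congr rfl (fun i _ => a3 i), Finset.sum_add_distrib]
  rw [hker] at a1
  omega

/-- A family orthogonal to all global classes is global. -/
theorem exists_loc_eq (hM : Good p U M) (x : ∀ v : S, H1v v M)
    (hx : ∀ y, pairFam T hM x (locs T (Dual (chiQ p) M) y) = 0) :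
    ∃ z, locs T M z = x := by
  have hM' := hM.dual T.le_ker
  have := finite_fam T hM
  have := finite_fam T hM'
  have := T.finite_H1 hM
  have := T.finite_H1 hM'
  refine mem_range_of_orthogonal (locs T M) (locs T (Dual (chiQ p) M)) (pairFam T hM)
    (nsmul_fam (S := S) hM) (nsmul_fam (S := S) hM') (pairFam_bijective T hM)
    (fun z y => sum_pairAt_loc (sDatum T.hp2 T.hpS) (T.smooth hM) z y) ?_ hx
  have a3 := ldim_fam T hM
  have b1 := ldim_eq_ker_add_range p (locs T M)
  have b2 := ldim_eq_ker_add_range p (locs T (Dual (chiQ p) M))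
  have b3 : ldim p (locs T (Dual (chiQ p) M)).ker = ldim p (shaH1 (sDatum T.hp2 T.hpS) M) := by
    rw [ker_locFam_dual]
  have b4 := ldim_ker_locFam T hM
  have c1 := ldim_H1_add T hM
  have c2 := ldim_H1_add T hM'
  have c3 := ldim_infFixed_dual (p := p) (M := M)
  have c4 := ldim_eqHom_infinity T.hp2 hM.killed
  have c5 := ldim_h0Sub_dual (Γ := GQ) (χ := chiQ p) (M := M)
  have c6 := ldim_eqHom_dual (Γ := GQ) (χ := chiQ p) hM.killed
  have c7 : ldim p (Dual (chiQ p) M) = ldim p M := by
    rw [ldim, ldim, show Nat.card (Dual (chiQ p) M) = Nat.card M from card_homZMod hM.killed]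
  omega

/-- Surjectivity onto the product over some of the places, when no dual class is supported there. -/
theorem exists_loc_eq_on (hM : Good p U M) (P : Set S)
    (hP : ∀ y : H1 (LS S) (Dual (chiQ p) M),
      (∀ v ∉ P, locAt T v (Dual (chiQ p) M) y = 0) → y = 0)
    (x : ∀ v : S, H1v v M) : ∃ z, ∀ v ∈ P, locAt T v M z = x v := by
  have hM' := hM.dual T.le_ker
  have := finite_fam T hM'
  -- cut a family to the complement
  let cut : (∀ v : S, H1v v (Dual (chiQ p) M)) →+ (∀ v : S, H1v v (Dual (chiQ p) M)) :=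
    AddMonoidHom.mk' (fun y v => if v ∈ P then 0 else y v) fun y y' => funext fun v => by
      simp only [Pi.add_apply]
      split_ifs <;> simp
  obtain ⟨θ, hθ⟩ := exists_factor (nsmul_fam (S := S) hM')
    (cut.comp (locs T (Dual (chiQ p) M)))
    (AddMonoidHom.mk' (fun y => pairFam T hM (fun v => if v ∈ P then x v else 0)
      (locs T (Dual (chiQ p) M) y)) fun y y' =>
        (congrArg _ (AddMonoidHom.map_add (locs T (Dual (chiQ p) M)) y y')).trans
          (AddMonoidHom.map_add _ _ _))
    fun y hy => by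
      have hy0 : y = 0 := hP y fun v hv => by
        have := congrFun hy v
        simp only [AddMonoidHom.coe_comp, Function.comp_apply, cut, AddMonoidHom.mk'_apply,
          if_neg hv, Pi.zero_apply] at this
        exact this
      rw [hy0, map_zero]
  obtain ⟨w, hw⟩ := (pairFam_bijective T hM).2 (θ.comp cut)
  have hwP : ∀ v ∈ P, w v = 0 := fun v hv => (pairAt_bijective T hM v).1 (by
    rw [map_zero]
    refine AddMonoidHom.ext fun η => ?_
    rw [← pairFam_single T hM w v η, hw, AddMonoidHom.comp_apply, AddMonoidHom.zero_apply,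
      show cut (Pi.single (M := fun u : S => H1v u (Dual (chiQ p) M)) v η) = 0 from
        funext fun u => ?_,
      map_zero]
    show (if u ∈ P then (0 : H1v u (Dual (chiQ p) M))
      else Pi.single (M := fun u : S => H1v u (Dual (chiQ p) M)) v η u) = 0
    split_ifs with hu
    · rfl
    · exact Pi.single_eq_of_ne (M := fun u : S => H1v u (Dual (chiQ p) M))
        (fun e : u = v => hu (e ▸ hv)) η)
  obtain ⟨z, hz⟩ := exists_loc_eq T hM ((fun v => if v ∈ P then x v else 0) - w) fun y => by
    rw [map_sub, AddMonoidHom.sub_apply, hw, AddMonoidHom.comp_apply, sub_eq_zero]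
    exact (hθ y).symm
  refine ⟨z, fun v hv => ?_⟩
  rw [← locs_apply, hz, Pi.sub_apply, if_pos hv, hwP v hv, sub_zero]

/-- The classes with prescribed local conditions at some of the places. -/
def selmer (P : Set S) (C : ∀ v : S, AddSubgroup (H1v v M)) : AddSubgroup (H1 (LS S) M) :=
  ⨅ v ∈ P, (C v).comap (locAt T v M)

omit [Finite M] in
/-- Membership in a Selmer group. -/
lemma mem_selmer {P : Set S} {C : ∀ v : S, AddSubgroup (H1v v M)} {z : H1 (LS S) M} :
    z ∈ selmer T P C ↔ ∀ v ∈ P, locAt T v M z ∈ C v := by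
  simp only [selmer, AddSubgroup.mem_iInf, AddSubgroup.mem_comap]

/-- The size of the classes with local conditions. -/
theorem ldim_selmer_add (hM : Good p U M) (P : Finset S)
    (hP : ∀ y : H1 (LS S) (Dual (chiQ p) M),
      (∀ v ∉ P, locAt T v (Dual (chiQ p) M) y = 0) → y = 0)
    (C : ∀ v : S, AddSubgroup (H1v v M)) :
    ldim p (selmer T (P : Set S) C) + (∑ v ∈ P, ldim p (H1v v M)) +
        ldim p (eqHom (chiQ p) (MonoidHom.id GQ) M) + ldim p (infFixed M) =
      (∑ v : S, ldim p (eqHom (chiQ p) (localGaloisToGlobal ((v : Nat.Primes) : ℕ)) M)) +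
        (∑ v ∈ P, ldim p (C v)) +
        ldim p (h0Sub GQ M) + ldim p M := by
  have := T.finite_H1 hM
  have : ∀ v : S, Finite (H1v v M) := finite_H1v T hM
  have a1 : ldim p (selmer T (P : Set S) C) + (∑ v ∈ P, ldim p (H1v v M)) =
      ldim p (H1 (LS S) M) + ∑ v ∈ P, ldim p (C v) :=
    ldim_iInf_comap_add (fun v => locAt T v M) P C fun x => exists_loc_eq_on T hM (P : Set S) hP x
  have hsha : ldim p (shaH1 (sDatum T.hp2 T.hpS) M) = 0 := by
    have : Subsingleton (shaH1 (sDatum T.hp2 T.hpS) M) := ⟨fun a b => by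
      have h0 : ∀ a : shaH1 (sDatum T.hp2 T.hpS) M, a = 0 := fun a =>
          Subtype.ext (hP a.1 fun v _ => by
        have ha : a.1 ∈ (locs T (Dual (chiQ p) M)).ker := (ker_locFam_dual T (M := M)).symm ▸ a.2
        exact congrFun ha v)
      rw [h0 a, h0 b]⟩
    exact ldim_of_subsingleton p
  have a5 := ldim_H1_add T hM
  omega

end FermatAgent.CFT.Pairing
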