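import Fermat.Agent.CFT.Pairing.Cup

/-!
Cup products with values in induced modules, and the first cohomology of an induced module.
-/

set_option autoImplicit false

noncomputable section

open scoped Classical

namespace FermatAgent.CFT.Pairing

open Coh Euler

variable {p : ℕ} [hp : Fact p.Prime] {Γ : Type} [Group Γ] {χ : Γ →* (ZMod p)ˣ} {L : Levels Γ}
  {U : Subgroup Γ} {X : Type} [AddCommGroup X] [DistribMulAction Γ X]

omit hp in
/-- A class vanishing at the trivial coset is trivial. -/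
theorem cls_eq_zero_of_one_coset (x : ↥(L.Z1 ⊤ (Ind U X)))
    (h : ∀ g ∈ U, x.1 g ((1 : Γ) : Γ ⧸ U) = 0) : cls1 L (Ind U X) x = 0 := by
  have hx : ∀ γ δ c, x.1 (γ * δ) c = γ • x.1 δ (γ⁻¹ • c) + x.1 γ c := fun γ δ c => by
    rw [Levels.Z1_apply_mul x.2 (Subgroup.mem_top γ) (Subgroup.mem_top δ), Ind.add_apply,
      Ind.smul_apply]
  have hsm : ∀ γ δ : Γ, γ⁻¹ • ((γ * δ : Γ) : Γ ⧸ U) = (δ : Γ ⧸ U) := fun γ δ => by
    rw [MulAction.Quotient.smul_coe, smul_eq_mul, inv_mul_cancel_left]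
  set ξ : Γ ⧸ U → X := fun c => x.1 c.out c
  have hξ : ∀ γ : Γ, x.1 γ (γ : Γ ⧸ U) = ξ (γ : Γ ⧸ U) := fun γ => by
    obtain ⟨u, hu⟩ := QuotientGroup.mk_out_eq_mul U γ
    have e := hx γ (u : Γ) (γ : Γ ⧸ U)
    have e1 := hsm γ 1
    rw [mul_one] at e1
    rw [e1, h u u.2, smul_zero, zero_add] at e
    show x.1 γ (γ : Γ ⧸ U) = x.1 ((γ : Γ ⧸ U)).out (γ : Γ ⧸ U)
    rw [hu, e]
  rw [cls1_eq_zero_iff]
  refine ⟨-Ind.mk U ξ, fun γ _ => Ind.ext fun c => ?_⟩
  obtain ⟨δ, rfl⟩ : ∃ δ : Γ, ((γ * δ : Γ) : Γ ⧸ U) = c :=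
    ⟨γ⁻¹ * c.out, by rw [mul_inv_cancel_left, QuotientGroup.out_eq']⟩
  have e := hx γ δ ((γ * δ : Γ) : Γ ⧸ U)
  rw [hsm, hξ, hξ] at e
  simp only [d0, Ind.sub_apply, Ind.smul_apply, Ind.neg_apply, Ind.mk_apply, smul_neg, hsm, e]
  abel

variable [U.FiniteIndex]

/-- The cup product, split along the cosets. -/
def cupInd (x : Γ → Ind U X) (y : Γ → Dual χ (Ind U X)) (g h : Γ) : Ind U (Mu χ) :=
  Ind.mk U fun c => Mu.of χ (Dual.hom χ (Ind U X) (y g) (indSingle c ((g • x h) c)))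

lemma total_cupInd (x : Γ → Ind U X) (y : Γ → Dual χ (Ind U X)) (g h : Γ) :
    Ind.total (cupInd x y g h) = cup x y g h := by
  simp only [cupInd, Ind.total_apply, Ind.mk_apply, cup]
  rw [← map_sum, ← map_sum, sum_indSingle]

omit [U.FiniteIndex] in
/-- Induced cup products are cocycles. -/
lemma cupInd_mem_Z2 (hX : L.Smooth (Ind U X)) {x : Γ → Ind U X}
    (hx : x ∈ L.Z1 ⊤ (Ind U X)) {y : Γ → Dual χ (Ind U X)}
    (hy : y ∈ L.Z1 ⊤ (Dual χ (Ind U X))) : cupInd x y ∈ L.Z2 ⊤ (Ind U (Mu χ)) := by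
  obtain ⟨W, hW, hfix⟩ := hX.exists_finset hx.1.finite_image.toFinset
  refine ⟨?_, fun g _ h _ j _ => Ind.ext fun c => ?_⟩
  · obtain ⟨V, hV, hc⟩ := hx.1
    obtain ⟨V', hV', hc'⟩ := hy.1
    refine ⟨V ⊓ (V' ⊓ W), L.inf_mem hV (L.inf_mem hV' hW), fun g hg k hk s hs s' hs' => ?_⟩
    have e : (g * s) • x (k * s') = g • x k := by
      rw [hc k hk s' ⟨hs'.1, hs'.2.1⟩, mul_smul, hfix s hs.2.2.2 (x k) (by simp)]
    unfold cupInd
    rw [e, hc' g hg s ⟨hs.1, hs.2.2.1⟩]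
  · have key : g • Mu.of χ (Dual.hom χ (Ind U X) (y h)
        (indSingle (g⁻¹ • c) ((h • x j) (g⁻¹ • c)))) =
        Mu.of χ (Dual.hom χ (Ind U X) (g • y h) (indSingle c (((g * h) • x j) c))) := by
      rw [smul_pairing, smul_indSingle, smul_inv_smul, mul_smul g h, Ind.smul_apply g]
    simp only [d2, cupInd, Ind.add_apply, Ind.sub_apply, Ind.smul_apply g, Ind.mk_apply,
      Ind.zero_apply, key]
    rw [show g • (x (h * j)) (g⁻¹ • c) = (g • x (h * j)) c from rfl,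
      show g • (x h) (g⁻¹ • c) = (g • x h) c from rfl]
    simp only [Levels.Z1_apply_mul hy (Subgroup.mem_top g) (Subgroup.mem_top h),
      Levels.Z1_apply_mul hx (Subgroup.mem_top h) (Subgroup.mem_top j), smul_add, mul_smul,
      Ind.add_apply, map_add, AddMonoidHom.add_apply]
    abel

/-- The invariant of a cup product is computed on the subgroup, at the trivial coset. -/
theorem inv_cup_eq (I : InvDatum χ L) (hX : L.Smooth (Ind U X)) (hUn : U.Normal) (hU : U ∈ L)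
    (hUχ : U ≤ χ.ker) {x : Γ → Ind U X} (hx : x ∈ L.Z1 ⊤ (Ind U X))
    {y : Γ → Dual χ (Ind U X)} (hy : y ∈ L.Z1 ⊤ (Dual χ (Ind U X))) :
    I.inv ⊤ (cup x y) = I.inv U (fun g h => cupInd x y g h ((1 : Γ) : Γ ⧸ U)) := by
  have hF := cupInd_mem_Z2 hX hx hy
  have hf := eval_mem_Z2 hF
  rw [← I.inv_cor U hUn hU hUχ _ hf]
  have hT : ∀ {F : Γ → Γ → Ind U (Mu χ)}, F ∈ L.Z2 ⊤ (Ind U (Mu χ)) →
      (fun g k => Ind.total (F g k)) ∈ L.Z2 ⊤ (Mu χ) := fun hF =>
    Levels.map_mem_Z2 Ind.total (fun g _ φ => Ind.total_smul g φ) hF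
  rw [show cup x y = fun g k => Ind.total (cupInd x y g k) from
    funext fun g => funext fun k => (total_cupInd x y g k).symm]
  refine I.inv_congr L.top_mem (hT hF) (hT (indFun2_mem_Z2 hU hf)) ?_
  refine Levels.B2_congr (Levels.map_mem_B2 Ind.total (fun g _ φ => Ind.total_smul g φ)
    (sub_indFun2_mem_B2 hU (smooth_ind hU I.smooth_mu) hF)) fun g _ k _ => ?_
  simp only [Pi.sub_apply, map_sub]

/-- The cocycle of the twisted dual attached to a character of the subgroup. -/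
def indChar (ψ : CycChar L U p) (g : Γ) : Dual χ (Ind U (Mu χ)) :=
  Dual.mk χ _ (indPair fun c =>
    (AddMonoidHom.mulLeft (ψ (secCocycle U g c))).comp (Mu.val χ))

/-- The induced class of a character is a cocycle. -/
lemma indChar_mem (hU : U ∈ L) (ψ : CycChar L U p) :
    indChar (χ := χ) ψ ∈ L.Z1 ⊤ (Dual χ (Ind U (Mu χ))) := by
  refine ⟨?_, fun g _ h _ => AddMonoidHom.ext fun φ => ?_⟩
  · obtain ⟨V, hV, hc⟩ := ψ.const'
    obtain ⟨N, hN, hNn, hNle⟩ := L.exists_normal (L.inf_mem hV hU)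
    refine ⟨N, hN, fun g _ s hs => ?_⟩
    have : ∀ c, ψ (secCocycle U (g * s) c) = ψ (secCocycle U g c) := fun c => by
      obtain ⟨s', hs', he⟩ := exists_secCocycle_mul U hNn (hNle.trans inf_le_right) hs.2 g c
      rw [he]
      exact hc _ (secCocycle_mem U g c) s' ⟨(hNle hs').2, (hNle hs').1⟩
    simp only [indChar, this]
  · have e : ∀ (γ : Γ) (φ : Ind U (Mu χ)), Dual.hom χ _ (indChar (χ := χ) ψ γ) φ =
        ∑ c, ψ (secCocycle U γ c) * Mu.val χ (φ c) := fun _ _ => rfl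
    show Dual.hom χ _ (d1 (indChar (χ := χ) ψ) g h) φ = 0
    simp only [d1, map_add, map_sub, AddMonoidHom.add_apply, AddMonoidHom.sub_apply, Dual.hom_smul,
      e, Ind.smul_apply, inv_inv, Mu.val_smul, map_inv]
    rw [Finset.mul_sum, Fintype.sum_equiv (MulAction.toPerm g) _
      (fun c => ψ (secCocycle U h (g⁻¹ • c)) * Mu.val χ (φ c)) (fun c => by
        rw [MulAction.toPerm_apply, inv_smul_smul]
        have := Units.mul_inv (χ g)
        linear_combination (ψ (secCocycle U h c) * Mu.val χ (φ (g • c))) * this),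
      ← Finset.sum_sub_distrib, ← Finset.sum_add_distrib]
    refine Finset.sum_eq_zero fun c _ => ?_
    rw [secCocycle_mul, ψ.map_mul (secCocycle_mem U g c) (secCocycle_mem U h _)]
    ring

/-- The value on the subgroup of a cup product with such a cocycle. -/
lemma cupInd_indChar (hUχ : U ≤ χ.ker) (x : Γ → Ind U (Mu χ)) (ψ : CycChar L U p) {g : Γ}
    (hg : g ∈ U) (h : Γ) :
    cupInd x (indChar ψ) g h ((1 : Γ) : Γ ⧸ U) =
      Mu.of χ (ψ g * Mu.val χ (x h ((1 : Γ) : Γ ⧸ U))) := by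
  have e : (g • x h) ((1 : Γ) : Γ ⧸ U) = g • x h ((1 : Γ) : Γ ⧸ U) := by
    rw [Ind.smul_apply, Ind.smul_one_coset (inv_mem hg)]
  show Mu.of χ (indPair _ (indSingle _ ((g • x h) ((1 : Γ) : Γ ⧸ U)))) = _
  rw [indPair_indSingle, AddMonoidHom.comp_apply, AddMonoidHom.coe_mulLeft,
    secCocycle_one_coset U hg, e, Mu.val_smul,
    MonoidHom.mem_ker.mp (hUχ hg), Units.val_one, one_mul]

end FermatAgent.CFT.Pairing
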