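import Fermat.Agent.CFT.Pairing.Cup

/-!
Localisation of classes of degree one, and the vanishing of the sum of the local pairings on
global classes.
-/

set_option autoImplicit false

noncomputable section

open scoped Classical

namespace FermatAgent.CFT.Pairing

open Coh Euler

variable {p : ℕ} [hp : Fact p.Prime] {Γ : Type} [Group Γ] {χ : Γ →* (ZMod p)ˣ} {L : Levels Γ}
  (D : GlobalDatum χ L) (v : D.ι) (M : Type) [AddCommGroup M] [DistribMulAction Γ M]

lemma pull1_mem_Z1 {z : Γ → M} (hz : z ∈ L.Z1 ⊤ M) :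
    (fun a => Res.of (D.r v) M (z (D.r v a))) ∈ (D.Lv v).Z1 ⊤ (Res (D.r v) M) := by
  let : DistribMulAction (D.Δ v) M := DistribMulAction.compHom M (D.r v)
  obtain ⟨⟨W, hW, hc⟩, hcoc⟩ := Levels.pullback_mem_Z1 (A := M) (U := ⊤) (D.r v) (fun _ _ => rfl)
    (U' := ⊤) (fun _ _ => Subgroup.mem_top _) hz
  exact ⟨⟨W, D.hLv v W hW, hc⟩, hcoc⟩

/-- The localised module is smooth. -/
lemma smooth_res (hM : L.Smooth M) : (D.Lv v).Smooth (Res (D.r v) M) := fun m => by
  obtain ⟨W, hW, hfix⟩ := hM (show M from m)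
  exact ⟨W.comap (D.r v), D.hLv v _ (L.comap_mem (D.r v) hW), fun s hs => hfix _ hs⟩

/-- Localisation of classes of degree one. -/
def loc1 : H1 L M →+ H1 (D.Lv v) (Res (D.r v) M) :=
  QuotientAddGroup.map _ _
    (AddMonoidHom.mk' (fun z : ↥(L.Z1 ⊤ M) =>
      (⟨_, pull1_mem_Z1 D v M z.2⟩ : ↥((D.Lv v).Z1 ⊤ (Res (D.r v) M)))) fun _ _ => rfl)
    fun z hz => by
      obtain ⟨m, hm⟩ := hz
      exact ⟨Res.of (D.r v) M m, fun a _ => hm (D.r v a) (Subgroup.mem_top _)⟩

/-- A functional as a functional of the restricted module. -/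
def toDualRes : Res (D.r v) (Dual χ M) →+ Dual (χ.comp (D.r v)) (Res (D.r v) M) :=
  AddMonoidHom.mk' (fun n => Dual.mk (χ.comp (D.r v)) (Res (D.r v) M) (Dual.hom χ M n))
    fun _ _ => rfl

/-- Localisation commutes with duals. -/
lemma toDualRes_smul (a : D.Δ v) (n : Res (D.r v) (Dual χ M)) :
    toDualRes D v M (a • n) = a • toDualRes D v M n := AddMonoidHom.ext fun m => by
  show (χ (D.r v a) : ZMod p) * Dual.hom χ M n ((D.r v a)⁻¹ • (show M from m)) =
    (χ (D.r v a) : ZMod p) * Dual.hom χ M n (D.r v a⁻¹ • (show M from m))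
  rw [map_inv]

omit [DistribMulAction Γ M] in
/-- The dual of the restriction is the restriction of the dual. -/
lemma toDualRes_bijective : Function.Bijective (toDualRes D v M) :=
  ⟨fun _ _ h => h, fun n => ⟨n, rfl⟩⟩

/-- A bijective map of modules gives a bijection in degree one. -/
lemma h1Map_bijective {A B : Type} [AddCommGroup A] [DistribMulAction Γ A] [AddCommGroup B]
    [DistribMulAction Γ B] (e : A →+ B) (he : Function.Bijective e)
    (hs : ∀ (g : Γ) a, e (g • a) = g • e a) : Function.Bijective (h1Map (L := L) e hs) := by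
  have e' := AddEquiv.ofBijective e he
  refine ⟨(injective_iff_map_eq_zero _).mpr fun x hx => ?_, fun y => ?_⟩
  · obtain ⟨z, rfl⟩ := cls1_surjective x
    rw [h1Map_cls, cls1_eq_zero_iff] at hx
    obtain ⟨b, hb⟩ := hx
    obtain ⟨a, rfl⟩ := he.2 b
    refine cls1_eq_zero_iff.mpr ⟨a, fun g hg => he.1 ?_⟩
    rw [d0, map_sub, hs]
    exact hb g hg
  · obtain ⟨z, rfl⟩ := cls1_surjective y
    set f := Function.surjInv he.2
    have hf : ∀ b, e (f b) = b := Function.surjInv_eq he.2
    refine ⟨cls1 L A ⟨fun g => f (z.1 g), z.2.1.comp f, fun g hg k hk => he.1 ?_⟩, ?_⟩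
    · rw [map_zero, Levels.map_d1 e (hs g), ← z.2.2 g hg k hk]
      simp only [hf]
    · rw [h1Map_cls]
      exact congrArg _ (Subtype.ext (funext fun g => hf _))

/-- The pairing at a place. -/
def pairAt (hM : L.Smooth M) :
    H1 (D.Lv v) (Res (D.r v) M) →+ H1 (D.Lv v) (Res (D.r v) (Dual χ M)) →+ ZMod p :=
  AddMonoidHom.mk' (fun x => (pair (D.loc v) (smooth_res D v M hM) x).comp
    (h1Map (toDualRes D v M) (toDualRes_smul D v M))) fun x x' => by
      rw [map_add, AddMonoidHom.add_comp]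

variable {M}

/-- The local pairings of global classes sum to zero. -/
theorem sum_pairAt_loc (hM : L.Smooth M) (x : H1 L M) (y : H1 L (Dual χ M)) :
    ∑ w, pairAt D w M hM (loc1 D w M x) (loc1 D w (Dual χ M) y) = 0 := by
  obtain ⟨x, rfl⟩ := cls1_surjective x
  obtain ⟨y, rfl⟩ := cls1_surjective y
  refine Eq.trans (Finset.sum_congr rfl fun w _ => ?_) (D.recip _ (cup_mem_Z2 hM x.2 y.2))
  rfl

end FermatAgent.CFT.Pairing
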