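import Fermat.Agent.CFT.Pairing.Induced
import Fermat.Agent.CFT.LocalEuler.Vanish
import Fermat.Agent.CFT.Local.CharDuality

/-!
Nondegeneracy of the local pairing for modules induced from roots of unity.
-/

set_option autoImplicit false

noncomputable section

open scoped Classical

namespace FermatAgent.CFT.Pairing

open Coh Euler Local LocalEuler IntermediateField

variable {q : ℕ} [hq : Fact q.Prime] {p : ℕ} [hp : Fact p.Prime] {χ : Gal' q →* (ZMod p)ˣ}
  (R : RootDatum χ)

variable {F : IntermediateField ℚ_[q] (PadicAlgCl q)} [FiniteDimensional ℚ_[q] F]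
  (hF : F.fixingSubgroup ≤ χ.ker)

include hF in
/-- An element orthogonal to all characters of order `p` has trivial Kummer function. -/
theorem kum_eq_zero_of_cyc {a : MM q} (ha : a ∈ starF F)
    (h : ∀ b, ∀ hb : b ∈ starF F, Local.inv F (cyc (R.char hF hb) a) = 0) :
    ∀ g ∈ F.fixingSubgroup, kum R.prim a g = 0 := by
  have : NeZero p := ⟨hp.out.ne_zero⟩
  have := finite_powerClasses R hF
  have hk : ∀ (b c : ↥(starF F)), p • Local.inv F (cyc (R.char hF b.2) c.1) = 0 := fun b c => by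
    rw [← inv_nsmul F (cyc_mem_Z2' F _ c.2), show p • cyc (R.char hF b.2) c.1 =
      cyc (R.char hF b.2) (p • c.1) by rw [← natCast_zsmul, ← cyc_zsmul, natCast_zsmul],
      inv_cyc_nsmul F _ c.2]
  have hθex : ∀ b : ↥(starF F), ∃ f : ↥(starF F) ⧸ pPow (p := p) F →+ ZMod p,
      ∀ c : ↥(starF F), f (QuotientAddGroup.mk c) =
        qzRes p (Local.inv F (cyc (R.char hF b.2) c.1)) := fun b => by
    obtain ⟨φ, hφ⟩ : ∃ φ : ↥(starF F) →+ ZMod p,
        ∀ c, φ c = qzRes p (Local.inv F (cyc (R.char hF b.2) c.1)) :=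
      ⟨AddMonoidHom.mk' (fun c => qzRes p (Local.inv F (cyc (R.char hF b.2) c.1)))
          (fun c c' => by
        simp only [AddSubgroup.coe_add]
        rw [inv_cyc_add F _ c.2 c'.2, Global.qzRes_add (hk b c) (hk b c')]), fun _ => rfl⟩
    refine ⟨QuotientAddGroup.lift _ φ fun c hc => ?_, hφ⟩
    obtain ⟨d, hd, hde⟩ := AddSubgroup.mem_addSubgroupOf.mp hc
    have hz : Local.inv F (cyc (R.char hF b.2) c.1) = 0 :=
      hde ▸ inv_cyc_nsmul F (R.char hF b.2) hd
    rw [AddMonoidHom.mem_ker, hφ, hz, ← qz_zero p, qzRes_qz, Int.cast_zero]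
  choose θ hθ using hθex
  have hinj : Function.Injective fun x : ↥(starF F) ⧸ pPow (p := p) F => θ x.out :=
      fun x y hxy => by
    set b := x.out with hb
    set b' := y.out with hb'
    set ν := (R.char hF b.2).addChar ((R.char hF b'.2).scaleChar (-1))
    have hν : ∀ c ∈ starF F, Local.inv F (cyc ν c) = 0 := fun c hc => by
      have e : Local.inv F (cyc (R.char hF b.2) c) =
          Local.inv F (cyc (R.char hF b'.2) c) := by
        have h1 : qzRes p (Local.inv F (cyc (R.char hF b.2) c)) =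
            qzRes p (Local.inv F (cyc (R.char hF b'.2) c)) := by
          rw [← hθ b ⟨c, hc⟩, ← hθ b' ⟨c, hc⟩, hb, hb']
          exact DFunLike.congr_fun hxy _
        obtain ⟨i, hi⟩ := exists_qz (hk b ⟨c, hc⟩)
        obtain ⟨j, hj⟩ := exists_qz (hk b' ⟨c, hc⟩)
        rw [hi, hj, qzRes_qz, qzRes_qz, ZMod.intCast_eq_intCast_iff_dvd_sub] at h1
        rw [hi, hj, eq_comm, ← sub_eq_zero, ← qz_sub, qz_eq_zero_iff]
        exact h1
      have hs := cyc_scale_mem_B2 (R.char hF b'.2) ((R.char hF b'.2).scaleChar (-1)) (-1)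
        (fun g _ => by rw [CycChar.scaleChar_apply, Int.cast_neg, Int.cast_one]) hc
      rw [Local.inv_congr F (add_mem (cyc_mem_Z2' F _ hc) (cyc_mem_Z2' F _ hc))
        (cyc_addChar_mem_B2 _ _ hc), Local.inv_add F (cyc_mem_Z2' F _ hc) (cyc_mem_Z2' F _ hc), e,
        Local.inv_congr F (zsmul_mem (cyc_mem_Z2' F _ hc) _) hs,
        inv_zsmul F (cyc_mem_Z2' F _ hc), neg_one_zsmul, add_neg_cancel]
    have hz := eq_zero_of_inv_eq_zero_prime ν hν
    obtain ⟨c, hc, hce⟩ := exists_nsmul_of_kum_eq_zero R.prim (sub_mem b.2 b'.2) fun g hg => by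
      have h1 := kum_add R.prim (R.smul_z_eq hF) (sub_mem b.2 b'.2) b'.2 hg
      rw [sub_add_cancel] at h1
      have h2 : kum R.prim b.1 g + -1 * kum R.prim b'.1 g = 0 := hz g hg
      linear_combination h2 - h1
    rw [← Quotient.out_eq x, ← Quotient.out_eq y, ← hb, ← hb']
    refine (QuotientAddGroup.eq_iff_sub_mem (N := pPow (p := p) F)).mpr ?_
    exact AddSubgroup.mem_addSubgroupOf.mpr ⟨c, hc, hce⟩
  have hkill : ∀ x : ↥(starF F) ⧸ pPow (p := p) F, p • x = 0 := fun x => by
    obtain ⟨c, rfl⟩ := QuotientAddGroup.mk_surjective x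
    rw [← QuotientAddGroup.mk_nsmul, QuotientAddGroup.eq_zero_iff]
    exact AddSubgroup.mem_addSubgroupOf.mpr ⟨c.1, c.2, by simp⟩
  have := DFunLike.finite ((↥(starF F) ⧸ pPow (p := p) F) →+ ZMod p)
  have hbij := hinj.bijective_of_nat_card_le (le_of_eq (card_homZMod hkill))
  have h0 : (QuotientAddGroup.mk ⟨a, ha⟩ : ↥(starF F) ⧸ pPow (p := p) F) = 0 := by
    refine eq_zero_of_forall_hom hkill _ fun φ => ?_
    obtain ⟨x, rfl⟩ := hbij.2 φ
    rw [hθ x.out ⟨a, ha⟩, h _ x.out.2, ← qz_zero p, qzRes_qz, Int.cast_zero]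
  obtain ⟨d, hd, hde⟩ := AddSubgroup.mem_addSubgroupOf.mp ((QuotientAddGroup.eq_zero_iff _).mp h0)
  intro g hg
  rw [← show p • d = a from hde]
  exact kum_nsmul R.prim (R.smul_z_eq hF) hd hg

include hF in
/-- A class with values in a module induced from roots of unity, orthogonal to everything, is
trivial. -/
theorem eq_zero_of_pair_ind_mu [F.fixingSubgroup.FiniteIndex] (hUn : F.fixingSubgroup.Normal)
    (hS : (LL q).Smooth (Ind F.fixingSubgroup (Mu χ))) (x : H1 (LL q) (Ind F.fixingSubgroup (Mu χ)))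
    (h : ∀ y, pair (invDatum χ R.prim R.act) hS x y = 0) : x = 0 := by
  have : NeZero p := ⟨hp.out.ne_zero⟩
  obtain ⟨z, rfl⟩ := cls1_surjective x
  set I := invDatum χ R.prim R.act
  have hU : F.fixingSubgroup ∈ LL q := fix_mem F
  set α : Gal' q → ZMod p := fun g => Mu.val χ (z.1 g ((1 : Gal' q) : Gal' q ⧸ F.fixingSubgroup))
  let αc : CycChar (LL q) F.fixingSubgroup p :=
    { toFun := α
      map_mul' := fun g hg k _ => by
        simp only [α, Levels.Z1_apply_mul z.2 (Subgroup.mem_top g) (Subgroup.mem_top k),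
          Ind.add_apply,
          Ind.smul_apply, Ind.smul_one_coset (inv_mem hg), map_add, Mu.val_smul,
          MonoidHom.mem_ker.mp (hF hg), Units.val_one, one_mul]
        exact add_comm _ _
      const' := (z.2.1.mono le_top).comp fun φ =>
        Mu.val χ (φ ((1 : Gal' q) : Gal' q ⧸ F.fixingSubgroup)) }
  obtain ⟨a, ha, hαa⟩ := exists_kum_eq R.prim (fix_mem F) (R.smul_z_eq hF) αc
  have key : ∀ b, ∀ hb : b ∈ starF F, Local.inv F (cyc (R.char hF hb) a) = 0 := fun b hb => by
    set ψ := R.char hF hb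
    have hy := indChar_mem (χ := χ) hU ψ
    have hf := eval_mem_Z2 (cupInd_mem_Z2 hS z.2 hy)
    have h0 := h (cls1 (LL q) _ ⟨_, hy⟩)
    rw [pair_cls, inv_cup_eq I hS hUn hU hF z.2 hy,
      I.inv_eq_zero_iff F.fixingSubgroup hU _ hf] at h0
    have h1 : (fun g k => muToUx R.prim (Mu.of χ (ψ g * α k))) ∈
        (LL q).B2 F.fixingSubgroup (MM q) :=
      Levels.map_mem_B2 _ (fun g _ => muToUx_smul R.prim R.act g)
        (f := fun g k => Mu.of χ (ψ g * α k))
        (Levels.B2_congr h0 fun g hg k _ => (cupInd_indChar hF z.1 ψ hg k).symm)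
    rw [inv_eq_zero_iff F (cyc_mem_Z2' F ψ ha)]
    set c : Gal' q → MM q := fun g =>
      muToUx R.prim (Mu.of χ (ψ g * α g)) + (ψ g).val • pRoot p a
    have hc : (LL q).Const1 F.fixingSubgroup c := ψ.const'.op αc.const' fun i j =>
      muToUx R.prim (Mu.of χ (i * j)) + i.val • pRoot p a
    refine Levels.B2_congr (add_mem h1 (Levels.d1_mem_B2 hc)) fun g hg k hk => ?_
    show cyc ψ a g k = muToUx R.prim (Mu.of χ (ψ g * α k)) + d1 c g k
    have e1 : g • muToUx R.prim (Mu.of χ (ψ k * α k)) = muToUx R.prim (Mu.of χ (ψ k * α k)) := by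
      rw [← muToUx_smul R.prim R.act]
      exact congrArg _ (Mu.ext χ (by
        rw [Mu.val_smul, MonoidHom.mem_ker.mp (hF hg), Units.val_one, one_mul]))
    have e2 : g • pRoot p a = pRoot p a + muToUx R.prim (Mu.of χ (α g)) := by
      rw [← val_smul_zetaUx, show α g = αc g from rfl, hαa g hg, ← kum_spec R.prim ha hg,
        add_sub_cancel]
    have hαm : α (g * k) = α g + α k := αc.map_mul hg hk
    have hcarry : ((ψ g).val : ℤ) + (ψ k).val = (ψ g + ψ k).val + p * carry (ψ g) (ψ k) :=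
      val_add_val _ _
    have e3 : carry (ψ g) (ψ k) • a =
        (ψ g).val • pRoot p a + (ψ k).val • pRoot p a - (ψ g + ψ k).val • pRoot p a := by
      conv_lhs => rw [← nsmul_pRoot (p := p) a, ← natCast_zsmul, ← mul_zsmul]
      rw [show carry (ψ g) (ψ k) * (p : ℤ) =
          ((ψ g).val : ℤ) + (ψ k).val - (ψ g + ψ k).val by linear_combination -hcarry,
        sub_zsmul, add_zsmul, natCast_zsmul, natCast_zsmul, natCast_zsmul, sub_eq_add_neg]
    have e4 : (ψ k).val • muToUx R.prim (Mu.of χ (α g)) = muToUx R.prim (Mu.of χ (ψ k * α g)) := by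
      rw [← map_nsmul, ← map_nsmul, nsmul_eq_mul, ZMod.natCast_zmod_val]
    simp only [d1, c, cyc_apply, ψ.map_mul hg hk, hαm, smul_add, e1]
    rw [smul_comm g (ψ k).val, e2, smul_add, e4, e3]
    simp only [mul_add, add_mul, map_add]
    abel
  have hα : ∀ g ∈ F.fixingSubgroup, α g = 0 := fun g hg =>
    (hαa g hg).trans (kum_eq_zero_of_cyc R hF ha key g hg)
  exact cls_eq_zero_of_one_coset z fun g hg => Mu.ext χ (by rw [map_zero]; exact hα g hg)

end FermatAgent.CFT.Pairing
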